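/-
S55 / NIT : SKELETON of the nodes owned by the NIT chief (local non-norms, towers, all-T index).
WIP file (contains `sorry`): never import it from a landed file.  Each node is a task; the owner
proves it in the file named in the doc-string with EXACTLY this statement (namespace
`Fermat.Agent.S55.NIT`, not `...WIP`).
-/
import Fermat.Agent.S55.NIT.Loc.Defs
import Fermat.Agent.S55.NIT.Abs.Defs
import Fermat.Agent.S55.NIT.FI.GaloisVal

set_option autoImplicit false

namespace Fermat.Agent.S55.NIT.WIP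

open IsDedekindDomain NumberField WithZero Fermat.Agent.S55.NIT

universe u

section Loc

variable {K : Type*} [Field K] [NumberField K] {L : Type*} [Field L] [NumberField L] [Algebra K L]

/-- NIT-L1 (file Loc/ValSigma.lean). If `w` is the only prime above `v`, the Galois group preserves
`w`.  Proof: `FI.exists_valuation_comp`, both ideals lie in `primesOver`, `Set.ncard_eq_one`. -/
theorem val_sigma_eq (v : Pl K) (h1 : (v.asIdeal.primesOver (𝓞 L)).ncard = 1) (w : Pl L)
    (hw : w.under (𝓞 K) = v) (σ : L ≃ₐ[K] L) (y : L) :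
    w.valuation L (σ y) = w.valuation L y := sorry

/-- NIT-L2 (file Loc/ValNorm.lean). Proof: `Algebra.norm_eq_prod_automorphisms`, `map_prod`, L1,
`IsGalois.card_aut_eq_finrank`. -/
theorem val_norm_eq_pow [IsGalois K L] (v : Pl K) (h1 : (v.asIdeal.primesOver (𝓞 L)).ncard = 1)
    (w : Pl L) (hw : w.under (𝓞 K) = v) (y : L) :
    w.valuation L (algebraMap K L (Algebra.norm K y)) = w.valuation L y ^ Module.finrank K L := sorry

/-- NIT-L3 (file Loc/EF.lean). `e f g = p`, `g = 1`: either `e = 1` or (`e = p` and `f = 1`).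
Proof: `Ideal.ncard_primesOver_mul_ramificationIdxIn_mul_inertiaDegIn` (see `FI/CountAbove.lean`),
`ramificationIdx'_eq_ramificationIdx`, inertia degree one = the residue field map is onto. -/
theorem ramIdx_eq_one_or [IsGalois K L] {p : ℕ} (hp : p.Prime) (hdeg : Module.finrank K L = p)
    (v : Pl K) (h1 : (v.asIdeal.primesOver (𝓞 L)).ncard = 1) (w : Pl L) (hw : w.under (𝓞 K) = v) :
    v.asIdeal.ramificationIdx' w.asIdeal = 1 ∨
      (v.asIdeal.ramificationIdx' w.asIdeal = p ∧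
        ∀ a : 𝓞 L, ∃ c : 𝓞 K, a - algebraMap (𝓞 K) (𝓞 L) c ∈ w.asIdeal) := sorry

/-- NIT-L4 (file Loc/NonNormUnram.lean). Unramified nonsplit: a uniformiser is not a local norm.
Proof: `x` with `v x = exp (-1)` (`HeightOneSpectrum.valuation_exists_uniformizer`); if
`x = N y * u`, `u ∈ pu v 0`, then `v x = v (N y) = w (N y) = w y ^ p` (`valuation_liesOver`, L2). -/
theorem locNorm_ne_top_of_unram [IsGalois K L] {p : ℕ} (hp : p.Prime)
    (hdeg : Module.finrank K L = p) (v : Pl K) (h1 : (v.asIdeal.primesOver (𝓞 L)).ncard = 1)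
    (w : Pl L) (hw : w.under (𝓞 K) = v) (he : v.asIdeal.ramificationIdx' w.asIdeal = 1) :
    locNorm K L v ≠ ⊤ := sorry

/-- NIT-L5 (file Loc/Residue.lean). Residue degree one, field form.  Proof: write `y = a / s` with
`a s : 𝓞 L`, `s ∉ w` (e.g. `IsLocalization.AtPrime`/valuation ring of `w`, or: `y = a/b`, weak
approximation / `w.valuation_exists_uniformizer`, CRT), lift `a`, `s` to `𝓞 K`. -/
theorem exists_sub_lt_one (v : Pl K) (w : Pl L) (hw : w.under (𝓞 K) = v)
    (hf : ∀ a : 𝓞 L, ∃ c : 𝓞 K, a - algebraMap (𝓞 K) (𝓞 L) c ∈ w.asIdeal)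
    (y : L) (hy : w.valuation L y ≤ 1) :
    ∃ c : K, v.valuation K c ≤ 1 ∧ w.valuation L (y - algebraMap K L c) < 1 := sorry

/-- NIT-L6 (file Loc/NonPow.lean). A unit at `v ∤ p` which is not a `p`-th power modulo `v`.
Proof: the residue field is finite, the image of `ζ` has order `p` (`∏ (1 - ζ^i) = p ∉ v`), so
`x ↦ x^p` is not injective, hence not surjective, on its units. -/
theorem exists_unit_not_pow {p : ℕ} (hp : p.Prime) {ζ : K} (hζ : IsPrimitiveRoot ζ p) (v : Pl K)
    (hv : (p : 𝓞 K) ∉ v.asIdeal) :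
    ∃ u : Kˣ, v.valuation K (u : K) = 1 ∧ ¬ ∃ c : K, v.valuation K ((u : K) - c ^ p) < 1 := sorry

/-- NIT-L7 (file Loc/NormCongr.lean). Totally ramified: the norm of a `w`-unit is a `p`-th power
modulo `v`.  Proof: L5 gives `c`, `w (σ y - c) = w (y - c) < 1` by L1, so
`w (∏ σ y - c ^ p) < 1`; go down with `valuation_liesOver`. -/
theorem exists_norm_sub_pow_lt_one [IsGalois K L] {p : ℕ} (hp : p.Prime)
    (hdeg : Module.finrank K L = p) (v : Pl K) (h1 : (v.asIdeal.primesOver (𝓞 L)).ncard = 1)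
    (w : Pl L) (hw : w.under (𝓞 K) = v)
    (hf : ∀ a : 𝓞 L, ∃ c : 𝓞 K, a - algebraMap (𝓞 K) (𝓞 L) c ∈ w.asIdeal)
    (y : L) (hy : w.valuation L y = 1) :
    ∃ c : K, v.valuation K (Algebra.norm K y - c ^ p) < 1 := sorry

/-- NIT-L8 (file Loc/NonNormTame.lean). Tamely ramified: the unit of L6 is not a local norm.
Proof: `u = N y * t`, `t ∈ pu v 0`; `v (N y) = 1` so `w y = 1` (L2); L7; `v (u - c^p) < 1`. -/
theorem locNorm_ne_top_of_tame [IsGalois K L] {p : ℕ} (hp : p.Prime)
    (hdeg : Module.finrank K L = p) {ζ : K} (hζ : IsPrimitiveRoot ζ p) (v : Pl K)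
    (hv : (p : 𝓞 K) ∉ v.asIdeal) (h1 : (v.asIdeal.primesOver (𝓞 L)).ncard = 1)
    (w : Pl L) (hw : w.under (𝓞 K) = v)
    (hf : ∀ a : 𝓞 L, ∃ c : 𝓞 K, a - algebraMap (𝓞 K) (𝓞 L) c ∈ w.asIdeal) :
    locNorm K L v ≠ ⊤ := sorry

end Loc

/-- NIT-L9 (file Loc/NonNorm.lean). Assembly of L3, L4, L8 and `WildInput`. -/
theorem locNorm_ne_top {K L : Type u} [Field K] [NumberField K] [Field L] [NumberField L]
    [Algebra K L] [IsGalois K L] {p : ℕ} (hp : p.Prime) (hdeg : Module.finrank K L = p)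
    {ζ : K} (hζ : IsPrimitiveRoot ζ p) (hW : WildInput p K) (v : Pl K)
    (h1 : (v.asIdeal.primesOver (𝓞 L)).ncard = 1) : locNorm K L v ≠ ⊤ := sorry

/-! ### Pure group theory -/

/-- NIT-T1 (file Tower.lean). The tower inequality `|C(F''/F)| ≤ |C(F'/F)| · |C(F''/F')|`,
abstract form (indices, `0` = infinite, hence the divisibility-free statement with `≠ 0`). -/
theorem index_tower {Q21 Q20 Q10 : Type*} [CommGroup Q21] [CommGroup Q20] [CommGroup Q10]
    (ν : Q21 →* Q20) (π : Q20 →* Q10) (hπ : Function.Surjective π)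
    (hex : ∀ x : Q20, π x = 1 → ∃ y : Q21, ν y = x)
    (Γ21 : Subgroup Q21) (Γ20 : Subgroup Q20) (hν : Γ21.map ν ≤ Γ20)
    (h10 : (Γ20.map π).index ≠ 0) (h21 : Γ21.index ≠ 0) :
    Γ20.index ≠ 0 ∧ Γ20.index ≤ (Γ20.map π).index * Γ21.index := sorry

section AllT

variable {K : Type*} [Field K] [NumberField K]

/-- NIT-T2 (file AllT.lean). `C_T → C_S` (extension by `1`) is injective for `T ⊆ S`. -/
theorem index_img_dvd_of_subset (H : SI.Pl K → Subgroup Kˣ) {T S : Finset (SI.Pl K)} (hTS : T ⊆ S) :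
    (SI.img K H T (⨅ v : {v : SI.Pl K // v ∉ T}, H v)).index ∣
      (SI.img K H S (⨅ v : {v : SI.Pl K // v ∉ S}, H v)).index := sorry

end AllT

end Fermat.Agent.S55.NIT.WIP
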