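/-
S55 / NIT : interface check of the final assembly `NIT/Main.lean` against the WIP skeletons.
WIP file: never import it from a landed file.
-/
import Fermat.Agent.S55.NIT.WIP.Skeleton
import Fermat.Agent.S55.NIT.Abs.WIP.Skeleton
import Fermat.Agent.S55.NIT.Abs.WIP.Skeleton2
import Fermat.Agent.S55.NIT.Inst.WIP.Skeleton
import Fermat.Agent.S55.NIT.SI.SUnitIndex
import Fermat.Agent.S55.Cyc.TateCard

set_option autoImplicit false

namespace Fermat.Agent.S55.NIT.WIP

open IsDedekindDomain NumberField WithZero Fermat.Agent.S55.NIT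

universe u

variable {K : Type u} [Field K] [NumberField K]

/-- The concrete local data are compatible with all Kummer extensions. -/
theorem compat_locData {p : ℕ} (hp : p.Prime) (hp2 : p ≠ 2) {ζ : K} (hζ : IsPrimitiveRoot ζ p)
    (hW : WildInput p K) : Abs.Compat p K (Inst.locData hp hp2 hζ) := by
  intro L _ _ _ _ hdeg b β hβ hb
  have hK : Kum K L p := ⟨hp, hp2, inferInstance, hdeg, ⟨ζ, hζ⟩⟩
  have e : ∀ v, (Inst.locData hp hp2 hζ).nrm b v = locNorm K L v :=
    fun v => Inst.nrmD_eq_locNorm hK hβ hb v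
  refine ⟨fun v z => ?_, fun v h1 => ?_⟩
  · rw [e]; exact nrm_le_locNorm v ⟨z, rfl⟩
  · rw [e]; exact locNorm_ne_top hp hdeg hζ hW v h1

variable {L : Type u} [Field L] [NumberField L] [Algebra K L]

/-- **N3, Hasse norm theorem.** -/
theorem hasse_norm {p : ℕ} (hK : Kum K L p) (hW : WildInput p K) (x : Kˣ)
    (hx : ∀ v : Pl K, x ∈ locNorm K L v) : x ∈ nrm K L := by
  obtain ⟨ζ, hζ⟩ := hK.zeta
  have := hK.galois
  obtain ⟨b, β, hβ, hb⟩ := Inst.exists_kummer_generator hK
  obtain ⟨z, hz⟩ := Abs.WIP.hasse_norm hK.prime hK.odd (Cyc.tateLemma p hK.prime) hζ hK.deg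
    (Inst.locData hK.prime hK.odd hζ) (compat_locData hK.prime hK.odd hζ hW)
    (SI.sUnitIndex hK.prime hK.odd hζ) b β hβ hb x
    (fun v => by
      show x ∈ Inst.nrmD K p b v
      rw [Inst.nrmD_eq_locNorm hK hβ hb v]; exact hx v)
  exact ⟨z, hz⟩

/-- **N1, second inequality**, for every finite set `T` of places. -/
theorem index_img_locNorm_dvd {p : ℕ} (hK : Kum K L p) (hW : WildInput p K) (T : Finset (Pl K)) :
    (SI.img K (locNorm K L) T (⨅ v : {v : Pl K // v ∉ T}, locNorm K L v)).index ∣ p := by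
  obtain ⟨ζ, hζ⟩ := hK.zeta
  obtain ⟨b, β, hβ, hb⟩ := Inst.exists_kummer_generator hK
  have h := Abs.WIP.index_img_GamS_dvd hK.prime hK.odd (Cyc.tateLemma p hK.prime) hζ
    (Inst.locData hK.prime hK.odd hζ) (compat_locData hK.prime hK.odd hζ hW)
    (SI.sUnitIndex hK.prime hK.odd hζ) b hb T
  have e : (Inst.locData hK.prime hK.odd hζ).nrm b = locNorm K L :=
    funext fun v => Inst.nrmD_eq_locNorm hK hβ hb v
  unfold SI.GamS at h
  rw [e] at h
  exact h

/-- **N5**: nonsplit places exist outside every finite set. -/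
theorem exists_nonsplit {p : ℕ} (hK : Kum K L p) (T₀ : Finset (Pl K)) :
    ∃ v : Pl K, v ∉ T₀ ∧ (v.asIdeal.primesOver (𝓞 L)).ncard = 1 := by
  have := hK.galois
  exact Abs.WIP.exists_nonsplit hK.prime hK.deg T₀

end Fermat.Agent.S55.NIT.WIP
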